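import Fermat.Agent.Semistable.LocalTheory
import Fermat.Agent.FiniteFlat.Instance
import Fermat.Agent.EichlerShimura.Specialization
import Fermat.Agent.GaloisReps.UnipotentModel
import Fermat.Agent.Mazur.Eisenstein.Inputs

/-!
# Inertia is unipotent on the torsion prime to `q` of `J₀(N)` when `q` divides `N` exactly

Good reduction at every level prime to `q` makes the local theory of level `q M` available for
every `M`; no auxiliary level is needed.
-/

set_option autoImplicit false
set_option synthInstance.maxHeartbeats 400000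
set_option maxHeartbeats 1000000
set_option linter.style.haveILetI false

noncomputable section

open ModularCurve AlgebraicCurve
open scoped Pointwise

namespace Fermat.Agent.Semistable.Unipotent

open Fermat.Agent.Semistable

/-- The standing hypotheses of the local theory hold at every level prime to `q`. -/
theorem setup {A : ValuationSubring Arith.QBar} {M q : ℕ} [NeZero M] [Fact q.Prime]
    (hA : A.LiesOverPrime q) (hqM : ¬ q ∣ M) : Setup A M q :=
  have hM : (M : Res A) ≠ 0 := EichlerShimura.natCast_ne_zero Fact.out hqM hA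
  ⟨hA, hqM, hM, (FiniteFlat.genusFF_residue_eq (A := A) hM).ge⟩

/-- `(σ - 1)²` kills the torsion of order prime to `q`, `σ` inertia at `q`. -/
theorem inertia_sq_eq_zero {q M : ℕ} [hq : Fact q.Prime] [NeZero M] (hqM : ¬ q ∣ M)
    {A : ValuationSubring Arith.QBar} (hA : A.LiesOverPrime q) {σ : Arith.GQ}
    (hσ : σ ∈ A.inertiaSubgroupIn ℚ) {m : ℕ} (hm : ¬ q ∣ m) {x : JZero (q * M)}
    (hx : m • x = 0) : σ • (σ • x - x) - (σ • x - x) = 0 := by
  haveI : CharP (Res A) q := Arith.residueField_charP hA hq.out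
  haveI := Arith.residueField_isAlgClosed A
  haveI : FF.IsFunctionField (Res A) (KM A M) :=
    RedTorsion.isFunctionField_full rfl (EichlerShimura.natCast_ne_zero hq.out hqM hA)
  have hm0 : m ≠ 0 := fun h => hm (h ▸ dvd_zero q)
  obtain ⟨D, rfl⟩ := Pic0.mk_surjective x
  have hmD : (m : ℤ) • D.1 ∈ Divisor.principal (K := Arith.QBar) (F := FB (q * M)) := by
    have h1 : (QuotientAddGroup.mk ((m : ℤ) • D) : Pic0 Arith.QBar (FB (q * M))) = 0 := by
      rw [QuotientAddGroup.mk_zsmul, natCast_zsmul]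
      exact hx
    exact AddSubgroup.mem_addSubgroupOf.mp ((QuotientAddGroup.eq_zero_iff _).mp h1)
  obtain ⟨f, hf, hord⟩ := hmD
  have key := (setup hA hqM).inertia_sq_principal hσ (D := D.1) hm0 hm hf
    (fun v => (hord v).symm.trans (by rw [Finsupp.smul_apply, smul_eq_mul]))
  refine (QuotientAddGroup.eq_zero_iff _).mpr (AddSubgroup.mem_addSubgroupOf.mpr ?_)
  exact key

/-- The same at any level exactly divisible by `q`. -/
theorem inertia_sq_eq_zero' {N q : ℕ} [NeZero N] (hq : q.Prime) (hqN : q ∣ N)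
    (hq2 : ¬ q ^ 2 ∣ N) {A : ValuationSubring Arith.QBar} (hA : A.LiesOverPrime q)
    {σ : Arith.GQ} (hσ : σ ∈ A.inertiaSubgroupIn ℚ) {m : ℕ} (hm : ¬ q ∣ m) {x : JZero N}
    (hx : m • x = 0) : σ • (σ • x - x) - (σ • x - x) = 0 := by
  haveI := Fact.mk hq
  obtain ⟨M, rfl⟩ := hqN
  haveI : NeZero M := ⟨fun h => NeZero.ne (q * M) (by rw [h, mul_zero])⟩
  exact inertia_sq_eq_zero (fun h => hq2 (by rw [pow_two]; exact Nat.mul_dvd_mul_left q h))
    hA hσ hm hx

/-- `TorsionUnipotentAt` at every prime dividing the level exactly, with constant one. -/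
theorem torsionUnipotentAt {N q : ℕ} [NeZero N] (hq : q.Prime) (hqN : q ∣ N)
    (hq2 : ¬ q ^ 2 ∣ N) : GaloisReps.TorsionUnipotentAt N q :=
  ⟨1, one_pos, fun _ _ hm _ hA _ hτ _ hx => by
    rw [one_nsmul]; exact inertia_sq_eq_zero' hq hqN hq2 hA hτ hm hx⟩

/-- The input of the Eisenstein descent. -/
theorem semistableProperty {N q : ℕ} [NeZero N] (hq : q.Prime) (hqN : q ∣ N)
    (hq2 : ¬ q ^ 2 ∣ N) : Mazur.Eisenstein.SemistableProperty N q :=
  fun _ hA _ hσ _ _ hm hx => inertia_sq_eq_zero' hq hqN hq2 hA hσ hm hx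

end Fermat.Agent.Semistable.Unipotent

end
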